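import Mathlib
import Fermat.Prelude.Def_ModularCurve_ArithmeticGalois
import Fermat.Prelude.Def_GaloisRep_Flat

/-!
# PROGRAM H (S19): the conclusion of the frozen statement S19, verbatim, as a `Prop` (helper19)

Imports exactly the two Prelude definition modules of `Fermat/Statements/S19.lean` (`JZero`,
`ratLocalizedAt`); the reserved frozen declaration is never cited.
-/

set_option autoImplicit false

namespace Fermat.Agent.FF2.Main

open ModularCurve

/-- The conclusion of the frozen S19, verbatim. -/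
def S19Concl (p : ℕ) [NeZero p] (ℓ : ℕ) [Fact ℓ.Prime] (k : ℕ) : Prop :=
  ∃ (H : Type) (_ : CommRing H) (_ : HopfAlgebra (GaloisRep.ratLocalizedAt ℓ) H),
    Module.Finite (GaloisRep.ratLocalizedAt ℓ) H ∧ Module.Flat (GaloisRep.ratLocalizedAt ℓ) H ∧
    Coalgebra.IsCocomm (GaloisRep.ratLocalizedAt ℓ) H ∧
    ∃ e : WithConv (H →ₐ[GaloisRep.ratLocalizedAt ℓ] AlgebraicClosure ℚ) ≃
        ↥(Submodule.torsionBy ℤ (JZero p) ((ℓ : ℤ) ^ k)),
      (∀ f g, e (f * g) = e f + e g) ∧
      ∀ (σ : AlgebraicClosure ℚ ≃ₐ[ℚ] AlgebraicClosure ℚ)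
        (f g : WithConv (H →ₐ[GaloisRep.ratLocalizedAt ℓ] AlgebraicClosure ℚ)),
        (∀ h : H, g h = σ (f h)) → ((e g : JZero p)) = σ • (e f : JZero p)

end Fermat.Agent.FF2.Main
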