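import Mathlib
import Fermat.Agent.FF2.Main.Concl
import Fermat.Agent.FF2.G2I.Contract
import Fermat.Agent.FF2.Move.Collect
import Fermat.Agent.FF2.Level.LevelSubgroup

/-!
# PROGRAM H (S19), Top level, board v2 order of choices (helper19)

`S19_of_contracts` : the frozen S19 from

* (T-GEO) `GeoContract` = N7 + N8 jointly: LEVEL-FREE choice of a finite set `s` of residue places
  and a finite set `E₀` of residue constants such that for EVERY level `ζ` whose group `GamZ ℓ ζ`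
  fixes them there are a chart `(C, X)` fixed by `GamZ ℓ ζ` ((CH)), a constant `c0` and the
  finite-family addition congruences ((ADD)) for `xJ … X`;
* (T-INST) `InstContract` = N10: helper27's `S19_of_instance` ((ζ), (CH), (LIFT), (ADD) ⇒ S19);

by helper10's collector (`Move.exists_level_collect'`: ONE level `E`, ONE section `c`) and
helper16's N9 (`Level.exists_gamZ_le_levelSubgroup`: ONE `ζ`).  No mathematics here.
-/

set_option autoImplicit false
set_option linter.unusedSectionVars false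
set_option linter.style.haveILetI false

noncomputable section
namespace Fermat.Agent.FF2.Main

open AlgebraicCurve ModularCurve IsLocalRing Module Fermat.Agent.Val Fermat.Agent.Red
  Fermat.Agent.FF2.G2 Fermat.Agent.Val.GaloisModL Fermat.Agent.FF2.G2I Fermat.Agent.FF2.Move
  Fermat.Agent.FF2.Base Fermat.Agent.S55 MvPolynomial

set_option synthInstance.maxHeartbeats 400000
set_option maxHeartbeats 1000000

local notation "Qb" => AlgebraicClosure ℚ
local notation "GQ" => (AlgebraicClosure ℚ ≃ₐ[ℚ] AlgebraicClosure ℚ)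

variable (p : ℕ) [NeZero p] (ℓ : ℕ) [hℓ : Fact ℓ.Prime] (hℓp : ¬ ℓ ∣ p) (kk : ℕ)

/-- The reduction setup of `X₀(p)` at `padicPlace ℓ`. -/
abbrev redSP : RedSetup (K := Qb) (F := modularFunctionFieldBar p)
    (k := ResidueField (padicPlace ℓ))
    (Ft := modularFunctionFieldFullC (ResidueField (padicPlace ℓ)) p)
    (padicPlace ℓ) (residue (padicPlace ℓ)) :=
  redS p hℓp (padicPlace ℓ) (padicPlace_liesOverPrime ℓ)

variable {p ℓ}

/-- **(CH)**: the chart `(C, X)` is fixed by the subgroup `Γ`. -/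
def ChartFixed (Γ : Subgroup GQ) (hΓ : Γ ≤ DP ℓ) {g : ℕ} {C : ChartData (redSP p ℓ hℓp) g}
    (X : CoordData C) : Prop :=
  (∀ σ ∈ Γ, ∀ j, arithmeticGalois (modularFunctionFieldFull p) σ • C.P0 j = C.P0 j) ∧
  (∀ σ (hσ : σ ∈ Γ), ∀ j, coeffAutC (ResidueField (padicPlace ℓ)) p
    (decompResAut (padicPlace ℓ) ⟨σ, hΓ hσ⟩) • C.Pb j = C.Pb j) ∧
  (∀ σ ∈ Γ, ∀ j, arithmeticGalois (modularFunctionFieldFull p) σ • (X.T j).t = (X.T j).t)

/-- **(ADD)**, helper27's finite-family form: for every finite family `U` of points of the kernel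
of reduction and every `n` there are polynomials over `W` computing the coordinates of
`u + u' + c0` from those of `u`, `u'` modulo `ℓⁿ P`. -/
def AddCong (W : Subring Qb) {g : ℕ} {C : ChartData (redSP p ℓ hℓp) g} (X : CoordData C)
    (hg : genusFF Qb (modularFunctionFieldBar p) ≤ g) (c0 : JZero p) : Prop :=
  ∀ (U : Finset (JZero p)), (∀ u ∈ U, reductionModL (padicPlace ℓ) p u = 0) → ∀ n : ℕ,
    ∃ Q : Fin g → MvPolynomial (Fin g ⊕ Fin g) W, ∀ u ∈ U, ∀ u' ∈ U, ∀ i, ∃ b ∈ padicPlace ℓ,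
      (((xJ p hℓp (padicPlace ℓ) (padicPlace_liesOverPrime ℓ) X hg (u + u' + c0) i :
          {c : padicPlace ℓ // residue (padicPlace ℓ) c = 0}) : padicPlace ℓ) : Qb) -
        aeval (Sum.elim
          (fun j => (((xJ p hℓp (padicPlace ℓ) (padicPlace_liesOverPrime ℓ) X hg u j :
            {c : padicPlace ℓ // residue (padicPlace ℓ) c = 0}) : padicPlace ℓ) : Qb))
          (fun j => (((xJ p hℓp (padicPlace ℓ) (padicPlace_liesOverPrime ℓ) X hg u' j :
            {c : padicPlace ℓ // residue (padicPlace ℓ) c = 0}) : padicPlace ℓ) : Qb))) (Q i) =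
        (ℓ : Qb) ^ n * b

variable (p ℓ)

/-- **(T-GEO)** = N7 + N8: level-free `s`, `E₀`; for every level fixing them: (CH) + (ADD). -/
def GeoContract : Prop :=
  ∃ (s : Finset (Place (ResidueField (padicPlace ℓ))
        (modularFunctionFieldFullC (ResidueField (padicPlace ℓ)) p)))
    (E₀ : Finset (ResidueField (padicPlace ℓ))),
    ∀ (m : ℕ) (ζ : Qb), ¬ ℓ ∣ m → ζ ^ m = 1 →
      (∀ σ (hσ : σ ∈ GamZ ℓ ζ), ∀ Q ∈ s, coeffAutC (ResidueField (padicPlace ℓ)) p
        (decompResAut (padicPlace ℓ) ⟨σ, hσ.1⟩) • Q = Q) →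
      (∀ σ (hσ : σ ∈ GamZ ℓ ζ), ∀ e ∈ E₀, decompResAut (padicPlace ℓ) ⟨σ, hσ.1⟩ e = e) →
      ∃ (g : ℕ) (hg : genusFF Qb (modularFunctionFieldBar p) ≤ g)
        (C : ChartData (redSP p ℓ hℓp) g) (X : CoordData C),
        ChartFixed hℓp (GamZ ℓ ζ) (fun _ h => h.1) X ∧
        ∃ c0 : JZero p, reductionModL (padicPlace ℓ) p c0 = 0 ∧ (∀ σ ∈ GamZ ℓ ζ, σ • c0 = c0) ∧
          AddCong hℓp (LamZ ℓ ζ) X hg c0

/-- **(T-INST)** = N10, helper27's `S19_of_instance`. -/
def InstContract : Prop :=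
  ∀ (m : ℕ) (ζ : Qb), ¬ ℓ ∣ m → ζ ^ m = 1 →
    ∀ (g : ℕ) (hg : genusFF Qb (modularFunctionFieldBar p) ≤ g)
      (C : ChartData (redSP p ℓ hℓp) g) (X : CoordData C),
      ChartFixed hℓp (GamZ ℓ ζ) (fun _ h => h.1) X →
      ∀ (c : JZeroC (ResidueField (padicPlace ℓ)) p → JZero p),
        (∀ ub, reductionModL (padicPlace ℓ) p (c ub) = ub) →
        (∀ σ ∈ GamZ ℓ ζ, ∀ v : TorsV p (ℓ := ℓ) kk,
          σ • c (redV p (padicPlace ℓ) kk v) = c (redV p (padicPlace ℓ) kk v)) →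
      ∀ (c0 : JZero p), reductionModL (padicPlace ℓ) p c0 = 0 → (∀ σ ∈ GamZ ℓ ζ, σ • c0 = c0) →
        AddCong hℓp (LamZ ℓ ζ) X hg c0 → S19Concl p ℓ kk

/-- **Top level**: the frozen S19 from (T-GEO) and (T-INST). -/
theorem S19_of_contracts [Finite (TorsV p (ℓ := ℓ) kk)]
    (hGEO : GeoContract p ℓ hℓp) (hINST : InstContract p ℓ hℓp kk) : S19Concl p ℓ kk := by
  classical
  obtain ⟨s, E₀, hgeo⟩ := hGEO
  -- ONE level, ONE section
  obtain ⟨E, c, hc, hcol⟩ :=
    exists_level_collect' p hℓp (padicPlace ℓ) (padicPlace_liesOverPrime ℓ) s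
      (Set.range fun v : TorsV p (ℓ := ℓ) kk => (v : JZero p)) (Set.finite_range _) E₀
  -- ONE ζ
  obtain ⟨m, ζ, hζ, hm, hle⟩ := Fermat.Agent.FF2.Level.exists_gamZ_le_levelSubgroup ℓ E
  obtain ⟨_, hE₀, hs, -, -, hlift⟩ := hcol (GamZ ℓ ζ) hle
  obtain ⟨g, hg, C, X, hCH, c0, hc0, hc0fix, hADD⟩ := hgeo m ζ hm hζ hs hE₀
  exact hINST m ζ hm hζ g hg C X hCH c hc
    (fun σ hσ v => hlift σ hσ (v : JZero p) ⟨v, rfl⟩) c0 hc0 hc0fix hADD

end Fermat.Agent.FF2.Main
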